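import Mathlib

/-!
# S55, layer L, piece UR5 (helper543): the cyclotomic extension `L(ζ_{q^n - 1})` of a
discretely valued field `L` with residue field of `q` elements is unramified of degree `n`

Abstract `AKLB` form: `R ⊆ S` discrete valuation rings, `S` the integral closure of `R` in
the cyclotomic extension `N = L(ζ_m)`, `m = q ^ n - 1`.  Then `[N : L] = n` and
`𝔪_R S = 𝔪_S`.
-/

set_option autoImplicit false
set_option linter.unusedSectionVars false
set_option linter.unusedVariables false
set_option linter.style.haveILetI false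
set_option linter.deprecated false

namespace Fermat.Agent.S55.Local.H543

open IsLocalRing

/-- cardinality of the residue field -/
noncomputable abbrev qq (R : Type) [CommRing R] [IsLocalRing R] : ℕ := Nat.card (ResidueField R)

/-- `m = q^n - 1` -/
noncomputable abbrev mm (R : Type) [CommRing R] [IsLocalRing R] (n : ℕ) : ℕ := qq R ^ n - 1

theorem two_le_qq (R : Type) [CommRing R] [IsLocalRing R] [Finite (ResidueField R)] :
    2 ≤ qq R := by
  have : Nontrivial (ResidueField R) := inferInstance
  exact Finite.one_lt_card

theorem mm_add_one (R : Type) [CommRing R] [IsLocalRing R] [Finite (ResidueField R)] (n : ℕ) :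
    mm R n + 1 = qq R ^ n := by
  have h2 := two_le_qq R
  have : 1 ≤ qq R ^ n := Nat.one_le_pow _ _ (by omega)
  unfold mm
  omega

theorem mm_pos (R : Type) [CommRing R] [IsLocalRing R] [Finite (ResidueField R)] (n : ℕ)
    (hn : 0 < n) : 0 < mm R n := by
  have h2 := two_le_qq R
  have h3 : 2 ^ n ≤ qq R ^ n := Nat.pow_le_pow_left h2 n
  have h4 : 2 ≤ 2 ^ n := by
    calc 2 = 2 ^ 1 := by norm_num
      _ ≤ 2 ^ n := Nat.pow_le_pow_right (by norm_num) hn
  unfold mm
  omega

section Core

variable (R S : Type) [CommRing R] [IsLocalRing R]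
  [Finite (ResidueField R)]
  [CommRing S] [IsLocalRing S]
  [Algebra R S] [Module.Finite R S] [IsLocalHom (algebraMap R S)]

include R in
theorem finite_residueField_S : Finite (ResidueField S) :=
  ResidueField.finite_of_finite (R := R) (S := S) inferInstance

theorem card_residueField_S :
    Nat.card (ResidueField S) = qq R ^ Module.finrank (ResidueField R) (ResidueField S) := by
  haveI := finite_residueField_S R S
  exact Module.natCard_eq_pow_finrank (K := ResidueField R) (V := ResidueField S)

theorem qq_cast_residueField_S : ((qq R : ℕ) : ResidueField S) = 0 := by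
  have h0 : ((qq R : ℕ) : ResidueField R) = 0 := by
    haveI := Fintype.ofFinite (ResidueField R)
    rw [qq, Nat.card_eq_fintype_card]
    exact FiniteField.cast_card_eq_zero (ResidueField R)
  have := congrArg (algebraMap (ResidueField R) (ResidueField S)) h0
  simpa using this

/-- `m` is a unit in `S`. -/
theorem isUnit_mm (n : ℕ) (hn : 0 < n) : IsUnit ((mm R n : ℕ) : S) := by
  rw [← residue_ne_zero_iff_isUnit]
  have h1 : (residue S ((mm R n : ℕ) : S)) + 1 = 0 := by
    have : (residue S ((mm R n : ℕ) : S)) + 1 = ((mm R n + 1 : ℕ) : ResidueField S) := by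
      push_cast
      simp
    rw [this, mm_add_one R n]
    push_cast
    rw [qq_cast_residueField_S R S, zero_pow hn.ne']
  intro h0
  rw [h0, zero_add] at h1
  exact one_ne_zero h1

/-- The reduction of a primitive `m`-th root of unity, `m` a unit, has order `m`. -/
theorem orderOf_residue_of_isPrimitiveRoot [IsDomain S] (m : ℕ) (hm : 0 < m)
    (hmu : IsUnit ((m : ℕ) : S)) (z : S) (hz : IsPrimitiveRoot z m) :
    orderOf (residue S z) = m := by
  obtain ⟨m', rfl⟩ : ∃ m', m = m' + 1 := ⟨m - 1, by omega⟩
  have hprod := IsPrimitiveRoot.prod_one_sub_pow_eq_order hz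
  have hunit : ∀ k ∈ Finset.range m', IsUnit (1 - z ^ (k + 1)) := by
    intro k hk
    have hdvd : (1 - z ^ (k + 1)) ∣ ∏ k ∈ Finset.range m', (1 - z ^ (k + 1)) :=
      Finset.dvd_prod_of_mem _ hk
    rw [hprod] at hdvd
    have : IsUnit ((m' : S) + 1) := by simpa using hmu
    exact isUnit_of_dvd_unit hdvd this
  rw [orderOf_eq_iff hm]
  refine ⟨?_, fun j hj hj0 => ?_⟩
  · rw [← map_pow, hz.pow_eq_one, map_one]
  · obtain ⟨k, rfl⟩ : ∃ k, j = k + 1 := ⟨j - 1, by omega⟩
    have hk : k ∈ Finset.range m' := Finset.mem_range.2 (by omega)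
    have h1 := hunit k hk
    rw [← residue_ne_zero_iff_isUnit] at h1
    intro h2
    apply h1
    rw [map_sub, map_one, map_pow, h2, sub_self]

/-- If the residue field of `S` contains an element of order `q^n - 1`, then `n ≤ f`. -/
theorem le_finrank_of_orderOf (n : ℕ) (hn : 0 < n) (x : ResidueField S)
    (hx : orderOf x = mm R n) :
    n ≤ Module.finrank (ResidueField R) (ResidueField S) := by
  haveI := finite_residueField_S R S
  haveI := Fintype.ofFinite (ResidueField S)
  have hx0 : x ≠ 0 := by
    rintro rfl
    have h1 : (0 : ResidueField S) ^ (mm R n) = 1 := by rw [← hx]; exact pow_orderOf_eq_one 0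
    rw [zero_pow (mm_pos R n hn).ne'] at h1
    exact zero_ne_one h1
  have h1 : x ^ (Fintype.card (ResidueField S) - 1) = 1 :=
    FiniteField.pow_card_sub_one_eq_one x hx0
  have h2 : mm R n ∣ Fintype.card (ResidueField S) - 1 := by
    rw [← hx]; exact orderOf_dvd_of_pow_eq_one h1
  rw [← Nat.card_eq_fintype_card, card_residueField_S R S] at h2
  set f := Module.finrank (ResidueField R) (ResidueField S) with hf
  have hfpos : 0 < f := Module.finrank_pos
  have hq := two_le_qq R
  have h3 : 0 < qq R ^ f - 1 := by
    have : 2 ^ f ≤ qq R ^ f := Nat.pow_le_pow_left hq f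
    have : 2 ≤ 2 ^ f := by
      calc 2 = 2 ^ 1 := by norm_num
        _ ≤ 2 ^ f := Nat.pow_le_pow_right (by norm_num) hfpos
    omega
  have h4 := Nat.le_of_dvd h3 h2
  have h5 : qq R ^ n ≤ qq R ^ f := by
    have := mm_add_one R n
    have : 1 ≤ qq R ^ f := Nat.one_le_pow _ _ (by omega)
    unfold mm at h4
    omega
  exact (Nat.pow_le_pow_iff_right (by omega)).1 h5

end Core

section Gal

variable (R S L N : Type) [CommRing R] [IsLocalRing R]
  [CommRing S] [IsDomain S] [IsLocalRing S]
  [Algebra R S] [IsLocalHom (algebraMap R S)]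
  [Field L] [Algebra R L] [IsFractionRing R L]
  [Field N] [Algebra L N] [Algebra S N] [IsFractionRing S N] [Algebra R N]
  [IsScalarTower R L N] [IsScalarTower R S N] [IsIntegralClosure S R N]
  [Algebra.IsAlgebraic L N]

/-- The reduction map from the Galois group to the Galois group of the residue fields. -/
noncomputable def redGal (σ : N ≃ₐ[L] N) : ResidueField S ≃ₐ[ResidueField R] ResidueField S :=
  ResidueField.mapAlgEquiv' (galRestrict R L N S σ)

theorem redGal_residue (σ : N ≃ₐ[L] N) (x : S) :
    redGal R S L N σ (residue S x) = residue S (galRestrict R L N S σ x) := rfl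

theorem redGal_one : redGal R S L N 1 = 1 := by
  ext x
  obtain ⟨x, rfl⟩ := residue_surjective x
  rw [redGal_residue, map_one]
  rfl

/-- Rigidity: an automorphism of a cyclotomic extension is determined by the reduction of its
value on a primitive root whose reduction has full order. -/
theorem redGal_rigid (m : ℕ) [NeZero m] [IsCyclotomicExtension {m} L N] (z : S)
    (hz : IsPrimitiveRoot (algebraMap S N z) m) (hord : orderOf (residue S z) = m)
    (σ τ : N ≃ₐ[L] N)
    (h : redGal R S L N σ (residue S z) = redGal R S L N τ (residue S z)) : σ = τ := by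
  apply hz.autToPow_injective L
  have key : ∀ ρ : N ≃ₐ[L] N,
      galRestrict R L N S ρ z = z ^ (hz.autToPow L ρ : ZMod m).val := by
    intro ρ
    apply IsFractionRing.injective S N
    rw [algebraMap_galRestrict_apply, map_pow, hz.autToPow_spec L ρ]
  rw [redGal_residue, redGal_residue, key σ, key τ, map_pow, map_pow] at h
  have hinj := pow_injOn_Iio_orderOf (x := residue S z)
  rw [hord] at hinj
  have h1 : (hz.autToPow L σ : ZMod m).val = (hz.autToPow L τ : ZMod m).val :=
    hinj (ZMod.val_lt _) (ZMod.val_lt _) h
  exact Units.ext (ZMod.val_injective m h1)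

end Gal

section Main

variable (R S L N : Type) [CommRing R] [IsDomain R] [IsDiscreteValuationRing R]
  [Finite (ResidueField R)]
  [CommRing S] [IsDomain S] [IsDiscreteValuationRing S]
  [Algebra R S] [Module.Finite R S] [IsLocalHom (algebraMap R S)]
  [Field L] [Algebra R L] [IsFractionRing R L]
  [Field N] [Algebra L N] [Algebra S N] [IsFractionRing S N] [Algebra R N]
  [IsScalarTower R L N] [IsScalarTower R S N] [IsIntegralClosure S R N]

theorem card_gal_residue :
    Nat.card (ResidueField S ≃ₐ[ResidueField R] ResidueField S) =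
      Module.finrank (ResidueField R) (ResidueField S) := by
  haveI := finite_residueField_S R S
  haveI := Fintype.ofFinite (ResidueField R)
  have h := FiniteField.bijective_frobeniusAlgEquivOfAlgebraic_pow (ResidueField R) (ResidueField S)
  rw [← Nat.card_eq_of_bijective _ h]
  simp

theorem cyclo_unram_core (n : ℕ) (hn : 0 < n) [IsCyclotomicExtension {mm R n} L N] :
    Module.finrank L N = n ∧
      (maximalIdeal R).map (algebraMap R S) = maximalIdeal S := by
  have hm : 0 < mm R n := mm_pos R n hn
  haveI : NeZero (mm R n) := ⟨hm.ne'⟩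
  -- the primitive root
  obtain ⟨ζ, hζ⟩ := IsCyclotomicExtension.exists_isPrimitiveRoot L N
    (Set.mem_singleton (mm R n)) hm.ne'
  have hζint : IsIntegral R ζ := by
    have h1 : IsIntegral ℤ ζ := hζ.isIntegral hm
    exact h1.tower_top
  set z : S := IsIntegralClosure.mk' S ζ hζint with hzdef
  have hzζ : algebraMap S N z = ζ := IsIntegralClosure.algebraMap_mk' S ζ hζint
  have hzN : IsPrimitiveRoot (algebraMap S N z) (mm R n) := by rw [hzζ]; exact hζ
  have hz : IsPrimitiveRoot z (mm R n) :=
    IsPrimitiveRoot.of_map_of_injective (f := algebraMap S N) hzN (IsFractionRing.injective S N)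
  have hord : orderOf (residue S z) = mm R n :=
    orderOf_residue_of_isPrimitiveRoot S (mm R n) hm (isUnit_mm R S n hn) z hz
  have hnf : n ≤ Module.finrank (ResidueField R) (ResidueField S) :=
    le_finrank_of_orderOf R S n hn _ hord
  -- Galois theory
  haveI : FiniteDimensional L N := IsCyclotomicExtension.finiteDimensional {mm R n} L N
  haveI : IsGalois L N := IsCyclotomicExtension.isGalois {mm R n} L N
  have hinj : Function.Injective (redGal R S L N) := fun σ τ h =>
    redGal_rigid R S L N (mm R n) z hzN hord σ τ (by rw [h])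
  haveI : Finite (ResidueField S ≃ₐ[ResidueField R] ResidueField S) := by
    apply Nat.finite_of_card_ne_zero
    rw [card_gal_residue R S]
    omega
  have hdf : Module.finrank L N ≤ Module.finrank (ResidueField R) (ResidueField S) := by
    rw [← IsGalois.card_aut_eq_finrank L N, ← card_gal_residue R S]
    exact Nat.card_le_card_of_injective _ hinj
  -- ramification
  have hp0 : maximalIdeal R ≠ ⊥ := IsDiscreteValuationRing.not_a_field R
  have hef := Ideal.ramificationIdx_mul_inertiaDeg_of_isLocalRing S L N hp0
  have hfdef : (maximalIdeal R).inertiaDeg' (maximalIdeal S) =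
      Module.finrank (ResidueField R) (ResidueField S) :=
    Ideal.inertiaDeg'_algebraMap (maximalIdeal R) (maximalIdeal S)
  rw [hfdef] at hef
  set e := Ideal.ramificationIdx' (maximalIdeal R) (maximalIdeal S) with he
  set f := Module.finrank (ResidueField R) (ResidueField S) with hf
  have hdpos : 0 < Module.finrank L N := Module.finrank_pos
  have hfpos : 0 < f := lt_of_lt_of_le hn hnf
  have he1 : e = 1 := by
    have h1 : e * f ≤ 1 * f := by rw [hef, one_mul]; exact hdf
    have h2 : e ≤ 1 := Nat.le_of_mul_le_mul_right h1 hfpos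
    have h3 : e ≠ 0 := by
      rintro h0
      rw [h0, zero_mul] at hef
      omega
    omega
  have hdf' : Module.finrank L N = f := by rw [← hef, he1, one_mul]
  -- surjectivity of the reduction map
  have hbij : Function.Bijective (redGal R S L N) := by
    refine hinj.bijective_of_nat_card_le ?_
    rw [card_gal_residue R S, IsGalois.card_aut_eq_finrank L N, hdf']
  have hfn : f ≤ n := by
    haveI := finite_residueField_S R S
    letI := Fintype.ofFinite (ResidueField R)
    obtain ⟨σ, hσ⟩ := hbij.2
      ((FiniteField.frobeniusAlgEquivOfAlgebraic (ResidueField R) (ResidueField S)) ^ n)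
    have hq : Fintype.card (ResidueField R) = qq R := (Nat.card_eq_fintype_card).symm
    have h1 : redGal R S L N σ (residue S z) = residue S z := by
      rw [hσ, AlgEquiv.coe_pow, FiniteField.coe_frobeniusAlgEquivOfAlgebraic_iterate, hq,
        ← mm_add_one R n]
      show (residue S z) ^ (mm R n + 1) = residue S z
      have h0 : (residue S z) ^ (mm R n) = 1 := by rw [← hord]; exact pow_orderOf_eq_one _
      rw [pow_succ, h0, one_mul]
    have h2 : σ = 1 := by
      apply redGal_rigid R S L N (mm R n) z hzN hord
      rw [h1, redGal_one]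
      rfl
    rw [h2, redGal_one] at hσ
    have h3 := orderOf_dvd_of_pow_eq_one hσ.symm
    rw [FiniteField.orderOf_frobeniusAlgEquivOfAlgebraic] at h3
    exact Nat.le_of_dvd hn h3
  refine ⟨by omega, ?_⟩
  -- `e = 1` means unramified
  haveI : FaithfulSMul R S := by
    rw [faithfulSMul_iff_algebraMap_injective]
    have h1 : Function.Injective (algebraMap R N) := by
      rw [IsScalarTower.algebraMap_eq R L N]
      exact (algebraMap L N).injective.comp (IsFractionRing.injective R L)
    intro x y hxy
    apply h1
    rw [IsScalarTower.algebraMap_apply R S N, IsScalarTower.algebraMap_apply R S N, hxy]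
  have hmap0 : (maximalIdeal R).map (algebraMap R S) ≠ ⊥ :=
    Ideal.map_ne_bot_of_ne_bot hp0
  have hDVR : IsDiscreteValuationRing S := inferInstance
  have htfae : IsDiscreteValuationRing S ↔
      ∀ (I) (_ : I ≠ ⊥), ∃ n : ℕ, I = maximalIdeal S ^ n :=
    (IsDiscreteValuationRing.TFAE S (IsDiscreteValuationRing.not_isField S)).out 0 6
  obtain ⟨k, hk⟩ := htfae.1 hDVR _ hmap0
  have hPS0 : maximalIdeal S ≠ ⊥ := IsDiscreteValuationRing.not_a_field S
  have hek : e = k := by
    apply Ideal.ramificationIdx'_spec
    · rw [hk]
    · rw [hk]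
      exact not_le_of_gt (Ideal.pow_succ_lt_pow hPS0 k)
  rw [hk, ← hek, he1, pow_one]

end Main

end Fermat.Agent.S55.Local.H543
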