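import Mathlib
import Fermat.Prelude.Thm_Algebra_finite_maximalSpectrum_and_bijective_localization_of_module_finite
import Fermat.Prelude.Thm_IsLocalRing_isAdicComplete_of_module_finite

/-!
# S55, layer L, piece LF0 (helper543): integers of a finite extension of a complete
discretely valued field

`R` complete DVR, `L = Frac R`, `N / L` finite separable, `S = integralClosure R N`.
Then `S` is a local ring, a DVR, finite over `R`, complete, with finite residue field
(if `R` has one).
-/

set_option autoImplicit false
set_option linter.unusedSectionVars false
set_option linter.unusedVariables false
set_option linter.style.haveILetI false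

namespace Fermat.Agent.S55.Local.H543

section LF0

variable (R L N : Type) [CommRing R] [IsDomain R] [IsDiscreteValuationRing R]
  [IsAdicComplete (IsLocalRing.maximalIdeal R) R]
  [Field L] [Algebra R L] [IsFractionRing R L]
  [Field N] [Algebra L N] [FiniteDimensional L N] [Algebra.IsSeparable L N]
  [Algebra R N] [IsScalarTower R L N]

include L

/-- The ring of integers is a finite `R`-module. -/
theorem finite_integralClosure : Module.Finite R (integralClosure R N) :=
  IsIntegralClosure.finite R L N (integralClosure R N)

/-- The ring of integers is a Dedekind domain. -/
theorem isDedekindDomain_integralClosure : IsDedekindDomain (integralClosure R N) :=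
  integralClosure.isDedekindDomain R L N

theorem isFractionRing_integralClosure : IsFractionRing (integralClosure R N) N :=
  integralClosure.isFractionRing_of_finite_extension L N

/-- The ring of integers of a finite extension of a complete discretely valued field is
local. -/
theorem isLocalRing_integralClosure : IsLocalRing (integralClosure R N) := by
  have : Module.Finite R (integralClosure R N) := finite_integralClosure R L N
  obtain ⟨-, hbij, -, -⟩ :=
    Algebra.finite_maximalSpectrum_and_bijective_localization_of_module_finite (𝒪 := R)
      (integralClosure R N)
  classical
  have huniq : ∀ I J : MaximalSpectrum (integralClosure R N), I = J := by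
    intro I J
    by_contra hIJ
    obtain ⟨a, ha⟩ := hbij.2 (Pi.single I 1)
    obtain ⟨b, hb⟩ := hbij.2 (Pi.single J 1)
    have hab : a * b = 0 := by
      apply hbij.1
      rw [map_mul, ha, hb, map_zero]
      funext K
      by_cases hK : K = I
      · subst hK
        simp [hIJ]
      · simp [hK]
    rcases mul_eq_zero.1 hab with h0 | h0
    · rw [h0, map_zero] at ha
      have := congrFun ha I
      simp at this
    · rw [h0, map_zero] at hb
      have := congrFun hb J
      simp at this
  obtain ⟨M, hM⟩ := Ideal.exists_maximal (integralClosure R N)
  refine IsLocalRing.of_unique_max_ideal ⟨M, hM, fun M' hM' => ?_⟩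
  exact congrArg MaximalSpectrum.asIdeal (huniq ⟨M', hM'⟩ ⟨M, hM⟩)

/-- The ring of integers is not a field. -/
theorem not_isField_integralClosure : ¬ IsField (integralClosure R N) := by
  intro hS
  have hinj : Function.Injective (algebraMap R (integralClosure R N)) := by
    have h1 : Function.Injective (algebraMap R N) := by
      rw [IsScalarTower.algebraMap_eq R L N]
      exact (algebraMap L N).injective.comp (IsFractionRing.injective R L)
    intro x y hxy
    apply h1
    have := congrArg (algebraMap (integralClosure R N) N) hxy
    simpa [← IsScalarTower.algebraMap_apply] using this
  have hint : Algebra.IsIntegral R (integralClosure R N) := inferInstance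
  exact IsDiscreteValuationRing.not_isField R
    (isField_of_isIntegral_of_isField hinj hS)

/-- The ring of integers is a discrete valuation ring. -/
theorem isDiscreteValuationRing_integralClosure :
    IsDiscreteValuationRing (integralClosure R N) := by
  haveI := isLocalRing_integralClosure R L N
  haveI := isDedekindDomain_integralClosure R L N
  exact ((IsDiscreteValuationRing.TFAE (integralClosure R N)
    (not_isField_integralClosure R L N)).out 0 2).2 (isDedekindDomain_integralClosure R L N)

theorem faithfulSMul_integralClosure : FaithfulSMul R (integralClosure R N) := by
  rw [faithfulSMul_iff_algebraMap_injective]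
  have h1 : Function.Injective (algebraMap R N) := by
    rw [IsScalarTower.algebraMap_eq R L N]
    exact (algebraMap L N).injective.comp (IsFractionRing.injective R L)
  intro x y hxy
  apply h1
  rw [IsScalarTower.algebraMap_apply R (integralClosure R N) N,
    IsScalarTower.algebraMap_apply R (integralClosure R N) N, hxy]

theorem isLocalHom_integralClosure : IsLocalHom (algebraMap R (integralClosure R N)) := by
  haveI := faithfulSMul_integralClosure R L N
  infer_instance

/-- The ring of integers is complete. -/
theorem isAdicComplete_integralClosure [IsLocalRing (integralClosure R N)] :
    IsAdicComplete (IsLocalRing.maximalIdeal (integralClosure R N)) (integralClosure R N) := by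
  haveI := finite_integralClosure R L N
  haveI := isLocalHom_integralClosure R L N
  exact IsLocalRing.isAdicComplete_of_module_finite (𝒪 := R) (T := integralClosure R N)

/-- The residue field of the ring of integers is finite. -/
theorem finite_residueField_integralClosure [IsLocalRing (integralClosure R N)]
    [Finite (IsLocalRing.ResidueField R)] :
    Finite (IsLocalRing.ResidueField (integralClosure R N)) := by
  haveI := finite_integralClosure R L N
  haveI := isLocalHom_integralClosure R L N
  exact IsLocalRing.ResidueField.finite_of_finite (R := R) (S := integralClosure R N)
    inferInstance

end LF0

end Fermat.Agent.S55.Local.H543
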