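import Fermat.Agent.S55.Local.Spec
import Fermat.Agent.S55.Local.H543.Integers
import Fermat.Agent.S55.Local.H543.CycloCore

/-!
# S55, layer L, piece UR5 (helper543): `ExistsUnramExtStatement`

For `L / K` finite Galois and `n ≥ 1` the cyclotomic extension `N = L(ζ_m)`, `m = q_L ^ n - 1`,
is Galois over `K`, and unramified of degree `n` over `L`.
-/

set_option autoImplicit false
set_option linter.unusedSectionVars false
set_option linter.unusedVariables false
set_option linter.style.haveILetI false

namespace Fermat.Agent.S55.Local.H543

open IsLocalRing Polynomial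

section Aux

variable (A F : Type) [CommRing A] [IsDomain A] [IsDiscreteValuationRing A]
  [IsAdicComplete (IsLocalRing.maximalIdeal A) A] [Finite (IsLocalRing.ResidueField A)]
  [Field F] [CharZero F] [Algebra A F] [IsFractionRing A F]
  (L : Type) [Field L] [Algebra F L] [FiniteDimensional F L]
  [Algebra A L] [IsScalarTower A F L]

/-- The residue cardinality of the integers of `L`. -/
noncomputable def qL : ℕ :=
  haveI := isLocalRing_integralClosure A F L
  qq (integralClosure A L)

/-- `m = q_L ^ n - 1`. -/
noncomputable def mL (n : ℕ) : ℕ := qL A F L ^ n - 1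

theorem mL_pos (n : ℕ) (hn : 0 < n) : 0 < mL A F L n := by
  haveI := isLocalRing_integralClosure A F L
  haveI := finite_residueField_integralClosure A F L
  exact mm_pos (integralClosure A L) n hn

/-- Elements of the ring of integers of `N` over `integralClosure A L` are integral over `A`. -/
theorem isIntegralElem_of_mem (N : Type) [Field N] [Algebra L N]
    (x : N) (hx : ((algebraMap L N).comp (algebraMap (integralClosure A L) L)).IsIntegralElem x) :
    ((algebraMap L N).comp (algebraMap A L)).IsIntegralElem x := by
  letI : Algebra A N := ((algebraMap L N).comp (algebraMap A L)).toAlgebra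
  haveI : IsScalarTower A L N := IsScalarTower.of_algebraMap_eq (fun _ => rfl)
  have h1 : IsIntegral (integralClosure A L) x := hx
  have h2 : IsIntegral A x := isIntegral_trans x h1
  exact h2

theorem cyclo_unram (n : ℕ) (hn : 0 < n) (N : Type) [Field N] [Algebra L N]
    [IsCyclotomicExtension {mL A F L n} L N] :
    Module.finrank L N = n ∧
    ∀ x : N, x ≠ 0 → ∃ y : L, y ≠ 0 ∧
      ((algebraMap L N).comp (algebraMap A L)).IsIntegralElem (x * (algebraMap L N y)⁻¹) ∧
      ((algebraMap L N).comp (algebraMap A L)).IsIntegralElem (x⁻¹ * algebraMap L N y) := by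
  haveI : CharZero L := charZero_of_injective_algebraMap (algebraMap F L).injective
  haveI hRloc : IsLocalRing (integralClosure A L) := isLocalRing_integralClosure A F L
  haveI : IsDiscreteValuationRing (integralClosure A L) :=
    isDiscreteValuationRing_integralClosure A F L
  haveI : IsAdicComplete (maximalIdeal (integralClosure A L)) (integralClosure A L) :=
    isAdicComplete_integralClosure A F L
  haveI : Finite (ResidueField (integralClosure A L)) :=
    finite_residueField_integralClosure A F L
  haveI : IsFractionRing (integralClosure A L) L := isFractionRing_integralClosure A F L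
  have hm : 0 < mL A F L n := mL_pos A F L n hn
  haveI : NeZero (mL A F L n) := ⟨hm.ne'⟩
  haveI : FiniteDimensional L N := IsCyclotomicExtension.finiteDimensional {mL A F L n} L N
  haveI hSloc : IsLocalRing (integralClosure (integralClosure A L) N) :=
    isLocalRing_integralClosure (integralClosure A L) L N
  haveI : IsDiscreteValuationRing (integralClosure (integralClosure A L) N) :=
    isDiscreteValuationRing_integralClosure (integralClosure A L) L N
  haveI : Module.Finite (integralClosure A L) (integralClosure (integralClosure A L) N) :=
    finite_integralClosure (integralClosure A L) L N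
  haveI : IsLocalHom (algebraMap (integralClosure A L) (integralClosure (integralClosure A L) N)) :=
    isLocalHom_integralClosure (integralClosure A L) L N
  haveI : IsFractionRing (integralClosure (integralClosure A L) N) N :=
    isFractionRing_integralClosure (integralClosure A L) L N
  haveI : IsCyclotomicExtension {mm (integralClosure A L) n} L N := ‹_›
  obtain ⟨hdeg, hmap⟩ := cyclo_unram_core (integralClosure A L)
    (integralClosure (integralClosure A L) N) L N n hn
  refine ⟨hdeg, ?_⟩
  obtain ⟨ϖ, hϖ⟩ := IsDiscreteValuationRing.exists_irreducible (integralClosure A L)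
  have hπ : Irreducible (algebraMap (integralClosure A L)
      (integralClosure (integralClosure A L) N) ϖ) := by
    rw [IsDiscreteValuationRing.irreducible_iff_uniformizer, ← hmap,
      (IsDiscreteValuationRing.irreducible_iff_uniformizer ϖ).1 hϖ, Ideal.map_span,
      Set.image_singleton]
  intro x hx
  obtain ⟨a, b, hb, hab⟩ :=
    IsFractionRing.div_surjective (A := integralClosure (integralClosure A L) N) x
  have hb0 : b ≠ 0 := nonZeroDivisors.ne_zero hb
  have ha0 : a ≠ 0 := by
    rintro rfl
    rw [map_zero, zero_div] at hab
    exact hx hab.symm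
  obtain ⟨i, u, hu⟩ := IsDiscreteValuationRing.eq_unit_mul_pow_irreducible ha0 hπ
  obtain ⟨j, v, hv⟩ := IsDiscreteValuationRing.eq_unit_mul_pow_irreducible hb0 hπ
  have hp0 : algebraMap (integralClosure A L) L ϖ ≠ 0 := by
    intro h0
    exact hϖ.ne_zero ((IsFractionRing.injective (integralClosure A L) L)
      (by rw [h0, map_zero]))
  have hP : algebraMap (integralClosure (integralClosure A L) N) N
      (algebraMap (integralClosure A L) (integralClosure (integralClosure A L) N) ϖ) =
      algebraMap L N (algebraMap (integralClosure A L) L ϖ) := by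
    rw [← IsScalarTower.algebraMap_apply, ← IsScalarTower.algebraMap_apply]
  have hP0 : algebraMap L N (algebraMap (integralClosure A L) L ϖ) ≠ 0 := by
    rw [Ne, map_eq_zero]; exact hp0
  have hU0 : algebraMap (integralClosure (integralClosure A L) N) N (u : _) ≠ 0 := by
    rw [Ne, map_eq_zero_iff _ (IsFractionRing.injective _ N)]; exact u.ne_zero
  have hV0 : algebraMap (integralClosure (integralClosure A L) N) N (v : _) ≠ 0 := by
    rw [Ne, map_eq_zero_iff _ (IsFractionRing.injective _ N)]; exact v.ne_zero
  have hx' : x = (algebraMap (integralClosure (integralClosure A L) N) N u *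
      algebraMap L N (algebraMap (integralClosure A L) L ϖ) ^ i) /
      (algebraMap (integralClosure (integralClosure A L) N) N v *
      algebraMap L N (algebraMap (integralClosure A L) L ϖ) ^ j) := by
    rw [← hab, hu, hv, map_mul, map_mul, map_pow, map_pow, hP]
  refine ⟨algebraMap (integralClosure A L) L ϖ ^ i / algebraMap (integralClosure A L) L ϖ ^ j,
    div_ne_zero (pow_ne_zero _ hp0) (pow_ne_zero _ hp0), ?_, ?_⟩
  · apply isIntegralElem_of_mem A L N
    have h1 : x * (algebraMap L N (algebraMap (integralClosure A L) L ϖ ^ i /
        algebraMap (integralClosure A L) L ϖ ^ j))⁻¹ =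
        algebraMap (integralClosure (integralClosure A L) N) N ((u * v⁻¹ : _ˣ) : _) := by
      have hv1 : algebraMap (integralClosure (integralClosure A L) N) N ((v⁻¹ : _ˣ) : _) =
          (algebraMap (integralClosure (integralClosure A L) N) N (v : _))⁻¹ := by
        exact eq_inv_of_mul_eq_one_left (by rw [← map_mul, Units.inv_mul, map_one])
      rw [Units.val_mul, map_mul, hv1, hx', map_div₀, map_pow, map_pow]
      field_simp
    rw [h1]
    exact (IsIntegralClosure.isIntegral (integralClosure A L) N _).algebraMap
  · apply isIntegralElem_of_mem A L N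
    have h1 : x⁻¹ * algebraMap L N (algebraMap (integralClosure A L) L ϖ ^ i /
        algebraMap (integralClosure A L) L ϖ ^ j) =
        algebraMap (integralClosure (integralClosure A L) N) N ((v * u⁻¹ : _ˣ) : _) := by
      have hu1 : algebraMap (integralClosure (integralClosure A L) N) N ((u⁻¹ : _ˣ) : _) =
          (algebraMap (integralClosure (integralClosure A L) N) N (u : _))⁻¹ := by
        exact eq_inv_of_mul_eq_one_left (by rw [← map_mul, Units.inv_mul, map_one])
      rw [Units.val_mul, map_mul, hu1, hx', map_div₀, map_pow, map_pow]
      field_simp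
    rw [h1]
    exact (IsIntegralClosure.isIntegral (integralClosure A L) N _).algebraMap

end Aux

/-- **UR5**: existence of unramified extensions on top of a given Galois extension. -/
theorem existsUnramExt : ExistsUnramExtStatement := by
  intro A F _ _ _ _ _ _ _ _ _ K _ _ _ L _ _ _ _ _ _ n hn
  letI algAL : Algebra A L := (toL A F L).toAlgebra
  haveI : IsScalarTower A F L := IsScalarTower.of_algebraMap_eq (fun _ => rfl)
  haveI : FiniteDimensional F L := FiniteDimensional.trans F K L
  haveI : CharZero K := charZero_of_injective_algebraMap (algebraMap F K).injective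
  haveI : CharZero L := charZero_of_injective_algebraMap (algebraMap F L).injective
  have hm : 0 < mL A F L n := mL_pos A F L n hn
  haveI : NeZero (mL A F L n) := ⟨hm.ne'⟩
  haveI : NeZero ((mL A F L n : ℕ) : L) := ⟨Nat.cast_ne_zero.2 hm.ne'⟩
  haveI tFKN : IsScalarTower F K (CyclotomicField (mL A F L n) L) :=
    IsScalarTower.of_algebraMap_eq (fun x => by
      rw [IsScalarTower.algebraMap_apply F L (CyclotomicField (mL A F L n) L),
        IsScalarTower.algebraMap_apply K L (CyclotomicField (mL A F L n) L),
        ← IsScalarTower.algebraMap_apply F K L])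
  haveI : IsCyclotomicExtension {mL A F L n} L (CyclotomicField (mL A F L n) L) :=
    CyclotomicField.isCyclotomicExtension _ _
  haveI : FiniteDimensional L (CyclotomicField (mL A F L n) L) :=
    IsCyclotomicExtension.finiteDimensional {mL A F L n} L _
  haveI fdKN : FiniteDimensional K (CyclotomicField (mL A F L n) L) :=
    FiniteDimensional.trans K L _
  haveI galKN : IsGalois K (CyclotomicField (mL A F L n) L) := by
    obtain ⟨p, hpsep, hp⟩ := IsGalois.is_separable_splitting_field K L
    haveI := hp
    have hp0 : p ≠ 0 := hpsep.ne_zero
    have hX0 : (X ^ (mL A F L n) - 1 : K[X]) ≠ 0 := X_pow_sub_C_ne_zero hm (1 : K)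
    haveI hsp : Polynomial.IsSplittingField L (CyclotomicField (mL A F L n) L)
        ((X ^ (mL A F L n) - 1 : K[X]).map (algebraMap K L)) := by
      have h1 : (X ^ (mL A F L n) - 1 : K[X]).map (algebraMap K L) = X ^ (mL A F L n) - 1 := by
        simp
      rw [h1]
      exact IsCyclotomicExtension.isSplittingField_X_pow_sub_one (mL A F L n) L _
    haveI : Polynomial.IsSplittingField K (CyclotomicField (mL A F L n) L)
        (p * (X ^ (mL A F L n) - 1)) :=
      Polynomial.IsSplittingField.mul (K := L) _ p (X ^ (mL A F L n) - 1) hp0 hX0
    haveI : Normal K (CyclotomicField (mL A F L n) L) :=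
      Normal.of_isSplittingField (p * (X ^ (mL A F L n) - 1))
    exact IsGalois.mk
  obtain ⟨hdeg, hunr⟩ := cyclo_unram A F L n hn (CyclotomicField (mL A F L n) L)
  refine ⟨CyclotomicField (mL A F L n) L, inferInstance, inferInstance, inferInstance,
    inferInstance, tFKN, inferInstance, inferInstance, fdKN, galKN, ?_, hdeg⟩
  have hcomp : toL A F (CyclotomicField (mL A F L n) L) =
      (algebraMap L (CyclotomicField (mL A F L n) L)).comp (algebraMap A L) := by
    ext a
    show algebraMap F (CyclotomicField (mL A F L n) L) (algebraMap A F a) =
      algebraMap L (CyclotomicField (mL A F L n) L) (algebraMap F L (algebraMap A F a))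
    rw [← IsScalarTower.algebraMap_apply F L (CyclotomicField (mL A F L n) L)]
  intro x
  obtain ⟨y, hy0, h1, h2⟩ := hunr (x : CyclotomicField (mL A F L n) L) x.ne_zero
  refine ⟨Units.mk0 y hy0, ?_⟩
  rw [mem_intUnits]
  constructor
  · have : ((x * (unitsIncl (CyclotomicField (mL A F L n) L) L (Units.mk0 y hy0))⁻¹ :
        (CyclotomicField (mL A F L n) L)ˣ) : CyclotomicField (mL A F L n) L) =
        (x : CyclotomicField (mL A F L n) L) *
          (algebraMap L (CyclotomicField (mL A F L n) L) y)⁻¹ := by
      simp
    rw [this]
    show (toL A F (CyclotomicField (mL A F L n) L)).IsIntegralElem _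
    rw [hcomp]
    exact h1
  · have : (((x * (unitsIncl (CyclotomicField (mL A F L n) L) L (Units.mk0 y hy0))⁻¹)⁻¹ :
        (CyclotomicField (mL A F L n) L)ˣ) : CyclotomicField (mL A F L n) L) =
        (x : CyclotomicField (mL A F L n) L)⁻¹ *
          (algebraMap L (CyclotomicField (mL A F L n) L) y) := by
      simp [mul_comm]
    rw [this]
    show (toL A F (CyclotomicField (mL A F L n) L)).IsIntegralElem _
    rw [hcomp]
    exact h2

end Fermat.Agent.S55.Local.H543
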